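import Fermat.Agent.S30.H527.EigenHom
import Fermat.Prelude.Thm_IsAdicComplete_of_module_finite

/-!
# S30 adic layer, piece 1 (helper527): `EigenHom t a` over a complete DVR

`O` a complete discrete valuation ring with finite residue field, `p ∈ 𝔪_O`, `J[p]` finite.
Then `EigenHom t a` is `𝔪`-adically separated, finitely generated and free over `O`;
`𝔪^n • ⊤ = {g | g vanishes on ϖ^{-n} O}`; the values of `g` on `ϖ^{-n} O` are killed by `p^n`.
-/

set_option autoImplicit false
set_option linter.unusedSectionVars false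

noncomputable section

namespace Fermat.Agent.S30.H527

open IsLocalRing

variable {O : Type} [CommRing O] [IsDomain O]
variable {J : Type} [AddCommGroup J]
variable {ι : Type} {t : ι → J →+ J} {a : ι → O}

/-- `x ∈ ϖ^{-n} O` inside the fraction field. -/
def IntAt (ϖ : O) (n : ℕ) (x : FractionRing O) : Prop :=
  ∃ r : O, algebraMap O (FractionRing O) (ϖ ^ n) * x = algebraMap O (FractionRing O) r

theorem algebraMap_ne_zero' {c : O} (hc : c ≠ 0) : algebraMap O (FractionRing O) c ≠ 0 := by
  simpa using (IsFractionRing.injective O (FractionRing O)).ne hc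

/-- Finiteness of `J[p^n]` from finiteness of `J[p]`. -/
theorem finite_torsion_pow {p : ℕ} (hfin : {x : J | p • x = 0}.Finite) (n : ℕ) :
    {x : J | p ^ n • x = 0}.Finite := by
  induction n with
  | zero =>
    refine (Set.finite_singleton (0 : J)).subset fun x hx => ?_
    simpa using hx
  | succ n ih =>
    have hpre : {x : J | p ^ (n + 1) • x = 0} = (fun x : J => p • x) ⁻¹' {y | p ^ n • y = 0} := by
      ext x
      simp only [Set.mem_ofPred_eq, Set.mem_preimage, pow_succ, mul_smul]
    rw [hpre]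
    refine ih.preimage' fun b _ => ?_
    by_cases hb : ∃ x₀ : J, p • x₀ = b
    · obtain ⟨x₀, hx₀⟩ := hb
      refine (hfin.image fun y => x₀ + y).subset fun x hx => ?_
      refine ⟨x - x₀, ?_, by abel⟩
      simp only [Set.mem_preimage, Set.mem_singleton_iff] at hx
      simp only [Set.mem_ofPred_eq, smul_sub, hx, hx₀, sub_self]
    · refine Set.finite_empty.subset fun x hx => ?_
      exact (hb ⟨x, hx⟩).elim

namespace EigenHom

/-- A homomorphism vanishing on `ϖ^{-n} O` is divisible by `ϖ^n`. -/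
theorem exists_eq_pow_smul {ϖ : O} (hϖ : ϖ ≠ 0) (n : ℕ) (g : EigenHom t a)
    (hg : ∀ x, IntAt ϖ n x → g x = 0) : ∃ h : EigenHom t a, g = ϖ ^ n • h := by
  have hc0 : algebraMap O (FractionRing O) (ϖ ^ n) ≠ 0 := algebraMap_ne_zero' (pow_ne_zero n hϖ)
  refine ⟨g.precompMul (algebraMap O (FractionRing O) (ϖ ^ n))⁻¹
    (fun r => hg _ ⟨r, by rw [← mul_assoc, mul_inv_cancel₀ hc0, one_mul]⟩), ?_⟩
  refine ext fun x => ?_
  rw [smul_apply, precompMul_apply, ← mul_assoc, inv_mul_cancel₀ hc0, one_mul]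

theorem pow_smul_apply_eq_zero {ϖ : O} (n : ℕ) (h : EigenHom t a) (x : FractionRing O)
    (hx : IntAt ϖ n x) : (ϖ ^ n • h) x = 0 := by
  obtain ⟨r, hr⟩ := hx
  rw [smul_apply, hr, apply_algebraMap]

variable [IsDiscreteValuationRing O]

/-- `𝔪^n • ⊤` is the set of homomorphisms vanishing on `ϖ^{-n} O`. -/
theorem mem_pow_smul_top_iff {ϖ : O} (hϖ : Irreducible ϖ) (n : ℕ) (g : EigenHom t a) :
    g ∈ (maximalIdeal O ^ n) • (⊤ : Submodule O (EigenHom t a)) ↔
      ∀ x, IntAt ϖ n x → g x = 0 := by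
  rw [hϖ.maximalIdeal_eq, Ideal.span_singleton_pow, Submodule.ideal_span_singleton_smul,
    Submodule.mem_smul_pointwise_iff_exists]
  constructor
  · rintro ⟨h, -, rfl⟩ x hx
    exact pow_smul_apply_eq_zero n h x hx
  · intro hg
    obtain ⟨h, rfl⟩ := exists_eq_pow_smul hϖ.ne_zero n g hg
    exact ⟨h, trivial, rfl⟩

/-- Every element of the fraction field lies in some `ϖ^{-n} O`. -/
theorem exists_intAt {ϖ : O} (hϖ : Irreducible ϖ) (x : FractionRing O) : ∃ n, IntAt ϖ n x := by
  obtain ⟨r, s, hs, rfl⟩ := IsFractionRing.div_surjective O x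
  have hs0 : s ≠ 0 := nonZeroDivisors.ne_zero hs
  obtain ⟨n, u, hu⟩ := IsDiscreteValuationRing.eq_unit_mul_pow_irreducible hs0 hϖ
  refine ⟨n, r * ((u⁻¹ : Oˣ) : O), ?_⟩
  have hsL : algebraMap O (FractionRing O) s ≠ 0 := algebraMap_ne_zero' hs0
  rw [mul_div_assoc', eq_comm, eq_div_iff hsL, ← map_mul, ← map_mul]
  congr 1
  rw [hu]
  have : ((u⁻¹ : Oˣ) : O) * (u : O) = 1 := by simp
  calc r * ((u⁻¹ : Oˣ) : O) * ((u : O) * ϖ ^ n)
      = r * (((u⁻¹ : Oˣ) : O) * (u : O)) * ϖ ^ n := by ring
    _ = ϖ ^ n * r := by rw [this]; ring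

/-- `IntAt` is monotone in `n`. -/
theorem intAt_mono {ϖ : O} {m n : ℕ} (hmn : m ≤ n) {x : FractionRing O} (hx : IntAt ϖ m x) :
    IntAt ϖ n x := by
  obtain ⟨r, hr⟩ := hx
  refine ⟨ϖ ^ (n - m) * r, ?_⟩
  rw [map_mul, ← hr, ← mul_assoc, ← map_mul, ← pow_add, Nat.sub_add_cancel hmn]

/-- `EigenHom t a` is `𝔪`-adically separated. -/
theorem isHausdorff : IsHausdorff (maximalIdeal O) (EigenHom t a) := by
  obtain ⟨ϖ, hϖ⟩ := IsDiscreteValuationRing.exists_irreducible O
  refine ⟨fun g hg => ext fun x => ?_⟩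
  obtain ⟨n, hn⟩ := exists_intAt hϖ x
  exact (mem_pow_smul_top_iff hϖ n g).1 (SModEq.zero.1 (hg n)) x hn

/-- The values of `g` on `ϖ^{-n} O` are killed by `p^n`. -/
theorem pow_nsmul_apply_eq_zero {ϖ : O} (hϖ : Irreducible ϖ) {p : ℕ}
    (hpO : (p : O) ∈ maximalIdeal O) (g : EigenHom t a) {n : ℕ} {x : FractionRing O}
    (hx : IntAt ϖ n x) : p ^ n • g x = 0 := by
  rw [hϖ.maximalIdeal_eq, Ideal.mem_span_singleton] at hpO
  obtain ⟨u, hu⟩ := hpO
  obtain ⟨r, hr⟩ := hx
  rw [← map_nsmul', nsmul_eq_mul]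
  have h1 : ((p ^ n : ℕ) : FractionRing O) * x = algebraMap O (FractionRing O) (u ^ n * r) := by
    rw [map_mul, ← hr, ← mul_assoc, ← map_mul, ← mul_pow, mul_comm u ϖ, ← hu]
    simp
  rw [h1, apply_algebraMap]

/-- Every value of `g` is `p`-power torsion. -/
theorem exists_pow_nsmul_apply_eq_zero {p : ℕ}
    (hpO : (p : O) ∈ maximalIdeal O) (g : EigenHom t a) (x : FractionRing O) :
    ∃ n : ℕ, p ^ n • g x = 0 := by
  obtain ⟨ϖ, hϖ⟩ := IsDiscreteValuationRing.exists_irreducible O
  obtain ⟨n, hn⟩ := exists_intAt hϖ x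
  exact ⟨n, pow_nsmul_apply_eq_zero hϖ hpO g hn⟩

section Finite

variable [IsAdicComplete (maximalIdeal O) O] [Finite (ResidueField O)]

/-- **Finiteness.**  If `J[p]` is finite then `EigenHom t a` is a finitely generated `O`-module. -/
theorem finite {p : ℕ} (hpO : (p : O) ∈ maximalIdeal O) (hfin : {x : J | p • x = 0}.Finite) :
    Module.Finite O (EigenHom t a) := by
  classical
  obtain ⟨ϖ, hϖ⟩ := IsDiscreteValuationRing.exists_irreducible O
  have hϖL : algebraMap O (FractionRing O) ϖ ≠ 0 := algebraMap_ne_zero' hϖ.ne_zero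
  set c : FractionRing O := (algebraMap O (FractionRing O) ϖ)⁻¹ with hc
  let sec : ResidueField O → O := Function.surjInv residue_surjective
  have hsec : ∀ k, residue O (sec k) = k := Function.surjInv_eq residue_surjective
  have hint : ∀ r : O, IntAt ϖ 1 (c * algebraMap O (FractionRing O) r) := fun r =>
    ⟨r, by rw [pow_one, ← mul_assoc, hc, mul_inv_cancel₀ hϖL, one_mul]⟩
  have : Finite {x : J // p • x = 0} := hfin.to_subtype
  -- the restriction map to `ϖ⁻¹ O / O`
  let Φ : EigenHom t a → (ResidueField O → {x : J // p • x = 0}) := fun g k =>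
    ⟨g (c * algebraMap O (FractionRing O) (sec k)), by
      have := pow_nsmul_apply_eq_zero hϖ hpO g (hint (sec k))
      simpa using this⟩
  have hΦ : ∀ g h : EigenHom t a, Φ g = Φ h →
      g - h ∈ (maximalIdeal O) • (⊤ : Submodule O (EigenHom t a)) := by
    intro g h hgh
    have hmem := (mem_pow_smul_top_iff hϖ 1 (g - h)).2 ?_
    · simpa using hmem
    rintro x ⟨r, hr⟩
    rw [pow_one] at hr
    have hx : x = c * algebraMap O (FractionRing O) r := by
      rw [← hr, ← mul_assoc, hc, inv_mul_cancel₀ hϖL, one_mul]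
    -- `r = sec (residue r) + ϖ r'`
    have hr' : r - sec (residue O r) ∈ maximalIdeal O := by
      rw [← residue_eq_zero_iff, map_sub, hsec, sub_self]
    rw [hϖ.maximalIdeal_eq, Ideal.mem_span_singleton] at hr'
    obtain ⟨r', hr'⟩ := hr'
    have hx' : x = c * algebraMap O (FractionRing O) (sec (residue O r)) +
        algebraMap O (FractionRing O) r' := by
      have : r = sec (residue O r) + ϖ * r' := by rw [← hr']; ring
      rw [hx]
      conv_lhs => rw [this]
      rw [map_add, map_mul, mul_add, ← mul_assoc, hc, inv_mul_cancel₀ hϖL, one_mul]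
    have h1 : g (c * algebraMap O (FractionRing O) (sec (residue O r))) =
        h (c * algebraMap O (FractionRing O) (sec (residue O r))) :=
      congrArg Subtype.val (congrFun hgh (residue O r))
    rw [hx', map_add', sub_apply, sub_apply, apply_algebraMap, apply_algebraMap, h1]
    simp
  -- representatives
  have : Finite (Set.range Φ) := Set.finite_coe_iff.2 (Set.toFinite _)
  haveI : Fintype (Set.range Φ) := Fintype.ofFinite _
  let ψ : Set.range Φ → EigenHom t a := fun y => y.2.choose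
  have hψ : ∀ y : Set.range Φ, Φ (ψ y) = y.1 := fun y => y.2.choose_spec
  let f : (Set.range Φ → O) →ₗ[O] EigenHom t a := Fintype.linearCombination O ψ
  have : IsAdicComplete (maximalIdeal O) (Set.range Φ → O) :=
    IsAdicComplete.of_module_finite (maximalIdeal O) (Set.range Φ → O)
  have : IsHausdorff (maximalIdeal O) (EigenHom t a) := isHausdorff
  have hsurj : Function.Surjective f := by
    apply surjective_of_mkQ_comp_surjective (I := maximalIdeal O)
    intro y
    obtain ⟨g, rfl⟩ := Submodule.mkQ_surjective _ y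
    refine ⟨Pi.single ⟨Φ g, Set.mem_range_self g⟩ 1, ?_⟩
    rw [LinearMap.comp_apply, Submodule.mkQ_apply, Submodule.mkQ_apply,
      Submodule.Quotient.eq]
    have : f (Pi.single ⟨Φ g, Set.mem_range_self g⟩ 1) = ψ ⟨Φ g, Set.mem_range_self g⟩ := by
      simp [f, Fintype.linearCombination_apply_single]
    rw [this]
    exact hΦ _ _ (hψ _)
  exact Module.Finite.of_surjective f hsurj

/-- **Freeness.** -/
theorem free {p : ℕ} (hpO : (p : O) ∈ maximalIdeal O) (hfin : {x : J | p • x = 0}.Finite) :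
    Module.Free O (EigenHom t a) := by
  have := finite (t := t) (a := a) hpO hfin
  exact Module.free_of_finite_type_torsion_free'

end Finite

end EigenHom

end Fermat.Agent.S30.H527
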