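import Mathlib

/-!
# S30 adic layer, piece 1 (helper527): the module of eigen-homomorphisms `L/O → J`

`O` a domain with fraction field `L = FractionRing O`, `J` an abelian group, `t i : J →+ J`
additive operators and `a i : O` scalars.  We study

  `EigenHom t a = { g : L →+ J | g(O) = 0, t i ∘ g = g ∘ (a i ·) for all i }`

with its `O`-module structure `(c • g)(x) = g(c x)`.  This file: the type, the module structure,
the action of a group acting on `J` and commuting with the `t i`.  (Mathlib only.)
-/

set_option autoImplicit false
set_option linter.unusedSectionVars false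

noncomputable section

namespace Fermat.Agent.S30.H527

variable {O : Type} [CommRing O] [IsDomain O]
variable {J : Type} [AddCommGroup J]
variable {ι : Type} (t : ι → J →+ J) (a : ι → O)

/-- The additive subgroup of `L →+ J` of homomorphisms vanishing on `O` and intertwining the
operators `t i` on `J` with multiplication by `a i` on `L`. -/
def eigenHoms : AddSubgroup (FractionRing O →+ J) where
  carrier := {g | (∀ r : O, g (algebraMap O (FractionRing O) r) = 0) ∧
      ∀ i x, t i (g x) = g (algebraMap O (FractionRing O) (a i) * x)}
  zero_mem' := ⟨fun _ => rfl, fun i _ => by simp⟩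
  add_mem' := by
    rintro g h ⟨hg0, hg⟩ ⟨hh0, hh⟩
    refine ⟨fun r => by simp [hg0 r, hh0 r], fun i x => ?_⟩
    simp only [AddMonoidHom.add_apply, map_add, hg i x, hh i x]
  neg_mem' := by
    rintro g ⟨hg0, hg⟩
    refine ⟨fun r => by simp [hg0 r], fun i x => ?_⟩
    simp only [AddMonoidHom.neg_apply, map_neg, hg i x]

/-- The type of eigen-homomorphisms (a type synonym, to control instances). -/
def EigenHom : Type := ↥(eigenHoms t a)

namespace EigenHom

variable {t a}

instance : AddCommGroup (EigenHom t a) := inferInstanceAs (AddCommGroup ↥(eigenHoms t a))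

/-- The underlying additive map. -/
def toHom (g : EigenHom t a) : FractionRing O →+ J := Subtype.val g

instance : CoeFun (EigenHom t a) (fun _ => FractionRing O → J) := ⟨fun g => g.toHom⟩

theorem ext {g h : EigenHom t a} (H : ∀ x, g x = h x) : g = h :=
  Subtype.ext (AddMonoidHom.ext H)

theorem ext_iff' {g h : EigenHom t a} : g = h ↔ ∀ x, g x = h x :=
  ⟨fun H _ => H ▸ rfl, ext⟩

@[simp] theorem zero_apply (x : FractionRing O) : (0 : EigenHom t a) x = 0 := rfl

@[simp] theorem add_apply (g h : EigenHom t a) (x : FractionRing O) : (g + h) x = g x + h x := rfl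

@[simp] theorem neg_apply (g : EigenHom t a) (x : FractionRing O) : (-g) x = -g x := rfl

@[simp] theorem sub_apply (g h : EigenHom t a) (x : FractionRing O) : (g - h) x = g x - h x := rfl

theorem map_add' (g : EigenHom t a) (x y : FractionRing O) : g (x + y) = g x + g y :=
  g.toHom.map_add x y

theorem map_zero' (g : EigenHom t a) : g 0 = 0 := g.toHom.map_zero

theorem map_neg' (g : EigenHom t a) (x : FractionRing O) : g (-x) = -g x := g.toHom.map_neg x

theorem map_sub' (g : EigenHom t a) (x y : FractionRing O) : g (x - y) = g x - g y :=
  g.toHom.map_sub x y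

theorem map_nsmul' (g : EigenHom t a) (n : ℕ) (x : FractionRing O) : g (n • x) = n • g x :=
  map_nsmul g.toHom n x

theorem apply_algebraMap (g : EigenHom t a) (r : O) :
    g (algebraMap O (FractionRing O) r) = 0 := g.2.1 r

theorem apply_eigen (g : EigenHom t a) (i : ι) (x : FractionRing O) :
    t i (g x) = g (algebraMap O (FractionRing O) (a i) * x) := g.2.2 i x

/-- Constructor. -/
def mk' (g : FractionRing O →+ J) (h0 : ∀ r : O, g (algebraMap O (FractionRing O) r) = 0)
    (he : ∀ i x, t i (g x) = g (algebraMap O (FractionRing O) (a i) * x)) : EigenHom t a :=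
  ⟨g, h0, he⟩

@[simp] theorem mk'_apply (g : FractionRing O →+ J) (h0 he) (x : FractionRing O) :
    (mk' (t := t) (a := a) g h0 he) x = g x := rfl

/-- Precomposition with multiplication by an element `y` of `L` such that `y • O`-integrality is
preserved is handled by the caller; this is the raw map. -/
def precompMul (g : EigenHom t a) (y : FractionRing O)
    (hy : ∀ r : O, g (y * algebraMap O (FractionRing O) r) = 0) : EigenHom t a :=
  mk' (g.toHom.comp (AddMonoidHom.mulLeft y)) (fun r => hy r) (fun i x => by
    show t i (g (y * x)) = g (y * (algebraMap O (FractionRing O) (a i) * x))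
    rw [apply_eigen, mul_left_comm])

@[simp] theorem precompMul_apply (g : EigenHom t a) (y : FractionRing O) (hy)
    (x : FractionRing O) : g.precompMul y hy x = g (y * x) := rfl

instance : SMul O (EigenHom t a) :=
  ⟨fun c g => g.precompMul (algebraMap O (FractionRing O) c) (fun r => by
    rw [← map_mul]; exact g.apply_algebraMap _)⟩

@[simp] theorem smul_apply (c : O) (g : EigenHom t a) (x : FractionRing O) :
    (c • g) x = g (algebraMap O (FractionRing O) c * x) := rfl

instance : Module O (EigenHom t a) where
  one_smul g := ext fun x => by simp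
  mul_smul c d g := ext fun x => by
    simp only [smul_apply, map_mul]
    congr 1; ring
  smul_zero c := ext fun x => by simp
  smul_add c g h := ext fun x => by simp
  add_smul c d g := ext fun x => by
    simp only [smul_apply, add_apply, map_add, add_mul]
  zero_smul g := ext fun x => by simp [map_zero']

/-- `EigenHom t a` is torsion-free over `O`. -/
instance : Module.IsTorsionFree O (EigenHom t a) where
  isSMulRegular c hc g h hgh := by
    have hc0 : c ≠ 0 := hc.ne_zero
    have hcL : algebraMap O (FractionRing O) c ≠ 0 := by
      simpa using (IsFractionRing.injective O (FractionRing O)).ne hc0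
    refine ext fun x => ?_
    have := ext_iff'.1 hgh ((algebraMap O (FractionRing O) c)⁻¹ * x)
    simpa [smul_apply, ← mul_assoc, mul_inv_cancel₀ hcL] using this

section Action

variable {G : Type} [Group G] [DistribMulAction G J]

/-- The action of a group acting on `J` and commuting with the `t i`. -/
def act (ht : ∀ i (σ : G) (x : J), σ • t i x = t i (σ • x)) (σ : G) :
    EigenHom t a →ₗ[O] EigenHom t a where
  toFun g := mk' ((DistribSMul.toAddMonoidHom J σ).comp g.toHom)
    (fun r => by
      show σ • g (algebraMap O (FractionRing O) r) = 0
      rw [g.apply_algebraMap, smul_zero])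
    (fun i x => by
      show t i (σ • g x) = σ • g (algebraMap O (FractionRing O) (a i) * x)
      rw [← ht, apply_eigen])
  map_add' g h := ext fun x => by
    show σ • (g x + h x) = σ • g x + σ • h x
    rw [smul_add]
  map_smul' c g := ext fun x => rfl

@[simp] theorem act_apply (ht : ∀ i (σ : G) (x : J), σ • t i x = t i (σ • x)) (σ : G)
    (g : EigenHom t a) (x : FractionRing O) : act ht σ g x = σ • g x := rfl

/-- The representation of `G` on `EigenHom t a`. -/
def rep (ht : ∀ i (σ : G) (x : J), σ • t i x = t i (σ • x)) :
    G →* Module.End O (EigenHom t a) where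
  toFun := act ht
  map_one' := LinearMap.ext fun g => ext fun x => by
    show (1 : G) • g x = g x
    rw [one_smul]
  map_mul' σ τ := LinearMap.ext fun g => ext fun x => by
    show (σ * τ) • g x = σ • τ • g x
    rw [mul_smul]

@[simp] theorem rep_apply (ht : ∀ i (σ : G) (x : J), σ • t i x = t i (σ • x)) (σ : G)
    (g : EigenHom t a) (x : FractionRing O) : rep ht σ g x = σ • g x := rfl

end Action

end EigenHom

end Fermat.Agent.S30.H527
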