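import Fermat.Agent.S30.H527.Adic
import Fermat.Agent.S29.Defs
import Fermat.Prelude.Def_GaloisRep_Adic

/-!
# S30 adic layer, PIECE 1 (helper527): `adicModule_of_torsion`

Exact statement of `Fermat.Agent.S30.H330.adicModule_of_torsion`
(origin/helper330, `Fermat/Agent/S30/H330/AdicSkeleton.lean`), proved with
`M := EigenHom t a = {g : L →+ J | g(O) = 0, t i ∘ g = g ∘ (a i ·)}`.
-/

set_option autoImplicit false

noncomputable section

namespace Fermat.Agent.S30.H527

open IsLocalRing Fermat.Agent.S29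

/-- PIECE 1 (pure algebra).  `M := {g ∈ Hom_ℤ(L/O, J) | t_i ∘ g = g ∘ a_i}` is a nonzero finite free
`O`-module with adically continuous Galois action; relations on `J[p^∞]` pass to `M`. -/
theorem adicModule_of_torsion
    {p : ℕ} (hp : p.Prime)
    {O : Type} [CommRing O] [IsDomain O] [IsDiscreteValuationRing O]
    [IsAdicComplete (IsLocalRing.maximalIdeal O) O] [Finite (IsLocalRing.ResidueField O)]
    [CharZero O] (hpO : (p : O) ∈ IsLocalRing.maximalIdeal O)
    {J : Type} [AddCommGroup J] [DistribMulAction GQ J]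
    (hsm : ∀ x : J, ∃ L : IntermediateField ℚ (AlgebraicClosure ℚ), FiniteDimensional ℚ L ∧
      ∀ σ : GQ, (∀ y ∈ L, σ y = y) → σ • x = x)
    (hfin : {x : J | p • x = 0}.Finite)
    {ι : Type} (t : ι → J →+ J) (ht : ∀ i (σ : GQ) (x : J), σ • t i x = t i (σ • x))
    (a : ι → O)
    (f : FractionRing O →+ J) (hf0 : ∀ r : O, f (algebraMap O (FractionRing O) r) = 0)
    (hf : f ≠ 0)
    (hfe : ∀ i x, t i (f x) = f (algebraMap O (FractionRing O) (a i) * x)) :
    ∃ (M : Type) (_ : AddCommGroup M) (_ : Module O M) (_ : Module.Free O M)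
      (_ : Module.Finite O M) (ρ : GQ →* Module.End O M),
      Nontrivial M ∧ GaloisActionIsAdicContinuous O ρ ∧
      (∀ σ : GQ, (∀ x : J, (∃ n : ℕ, p ^ n • x = 0) → σ • x = x) → ρ σ = 1) ∧
      (∀ (i : ι) (n : ℕ) (σ : GQ),
        (∀ x : J, (∃ k : ℕ, p ^ k • x = 0) → σ • σ • x - t i (σ • x) + n • x = 0) →
        ρ σ * ρ σ - a i • ρ σ + (n : O) • (1 : Module.End O M) = 0) := by
  classical
  obtain ⟨ϖ, hϖ⟩ := IsDiscreteValuationRing.exists_irreducible O
  have hFin : Module.Finite O (EigenHom t a) := EigenHom.finite hpO hfin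
  have hFree : Module.Free O (EigenHom t a) := EigenHom.free hpO hfin
  refine ⟨EigenHom t a, inferInstance, inferInstance, hFree, hFin, EigenHom.rep ht,
    ?_, ?_, ?_, ?_⟩
  · -- nontrivial
    refine ⟨⟨EigenHom.mk' f hf0 hfe, 0, fun h => hf ?_⟩⟩
    ext x
    exact EigenHom.ext_iff'.1 h x
  · -- adic continuity
    intro n
    have hS : {x : J | p ^ n • x = 0}.Finite := finite_torsion_pow hfin n
    choose Lx hLfin hLfix using hsm
    have : Finite {x : J // p ^ n • x = 0} := hS.to_subtype
    refine ⟨⨆ y : {x : J // p ^ n • x = 0}, Lx y.1, ?_, ?_⟩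
    · have : ∀ y : {x : J // p ^ n • x = 0}, FiniteDimensional ℚ (Lx y.1) := fun y => hLfin y.1
      exact IntermediateField.finiteDimensional_iSup_of_finite
    · intro σ hσ v
      rw [EigenHom.mem_pow_smul_top_iff hϖ]
      intro x hx
      have hvx : p ^ n • v x = 0 := EigenHom.pow_nsmul_apply_eq_zero hϖ hpO v hx
      have hfix : σ • v x = v x := hLfix (v x) σ fun y hy =>
        hσ y (le_iSup (fun y : {x : J // p ^ n • x = 0} => Lx y.1) ⟨v x, hvx⟩ hy)
      rw [EigenHom.sub_apply, EigenHom.rep_apply, hfix, sub_self]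
  · -- trivial action
    intro σ hσ
    refine LinearMap.ext fun g => EigenHom.ext fun x => ?_
    rw [EigenHom.rep_apply, Module.End.one_apply]
    exact hσ (g x) (EigenHom.exists_pow_nsmul_apply_eq_zero hpO g x)
  · -- relations
    intro i n σ hσ
    refine LinearMap.ext fun g => EigenHom.ext fun x => ?_
    have h1 : ((EigenHom.rep ht σ * EigenHom.rep ht σ : Module.End O (EigenHom t a)) g) x =
        σ • σ • g x := rfl
    have h2 : ((a i • EigenHom.rep ht σ : Module.End O (EigenHom t a)) g) x = t i (σ • g x) := by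
      show σ • g (algebraMap O (FractionRing O) (a i) * x) = t i (σ • g x)
      rw [← EigenHom.apply_eigen, ht]
    have h3 : (((n : O) • (1 : Module.End O (EigenHom t a))) g) x = n • g x := by
      show g (algebraMap O (FractionRing O) (n : O) * x) = n • g x
      rw [map_natCast, ← nsmul_eq_mul, EigenHom.map_nsmul']
    rw [LinearMap.add_apply, LinearMap.sub_apply, EigenHom.add_apply, EigenHom.sub_apply,
      h1, h2, h3, LinearMap.zero_apply, EigenHom.zero_apply]
    exact hσ (g x) (EigenHom.exists_pow_nsmul_apply_eq_zero hpO g x)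

end Fermat.Agent.S30.H527
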